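import Fermat.Agent.CFT.Setup
import Fermat.Agent.CFT.Cohomology.Shapiro
import Fermat.Agent.CFT.Cohomology.Exact

/-!
# Interface: cohomology of level-constant cochains (owner: helper75)
-/

set_option autoImplicit false

open CategoryTheory groupCohomology ExtCitation

noncomputable section

namespace Fermat.Agent.CFT

/-- Every level lies in a normal one. -/
def Levels.HasNormal (L : Levels) : Prop :=
  ∀ F, L.ok F → ∃ F', L.ok F' ∧ Normal ℚ F' ∧ F ≤ F'

theorem Levels.hasNormal_all : Levels.all.HasNormal := Levels.normalBasis_all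

theorem Levels.hasNormal_unr (S : Finset Nat.Primes) : (Levels.unr S).HasNormal :=
  Levels.normalBasis_unr S

variable {G : Type} [Group G] {L : Levels} {r : G →* GQ} {k : Type} [CommRing k]

/-- Shapiro's map in degree two: restrict to `U` and evaluate at the trivial coset. -/
def shapiro₂ (U : Subgroup G) (M : Rep.{0} k G) :
    H2c L r (funRep M U) →ₗ[k] H2c L (r.comp U.subtype) (Rep.res U.subtype M) :=
  mapH2 (M := funRep M U) (N := Rep.res U.subtype M) U.subtype (isLevelHom_of_eq _ fun _ => rfl)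
    (LinearMap.proj (QuotientGroup.mk (1 : G))) (fun h f => by
      have e : ((h : G)⁻¹ • (QuotientGroup.mk (1 : G) : G ⧸ U)) = QuotientGroup.mk (1 : G) := by
        rw [MulAction.Quotient.smul_mk, QuotientGroup.eq]; simp
      change M.ρ (h : G) (f ((h : G)⁻¹ • (QuotientGroup.mk (1 : G)))) = _
      rw [e]
      rfl)

/-- Shapiro's lemma in degree two. -/
theorem shapiro₂_bijective (hL : L.HasNormal) {U : Subgroup G} (hU : IsLevelSubgroup L r U)
    {M : Rep.{0} k G} (hM : IsSmoothRep L r M) :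
    Function.Bijective (shapiro₂ (L := L) (r := r) U M) := by
  constructor
  · rw [injective_iff_map_eq_zero]
    intro x hx
    obtain ⟨C, rfl⟩ := Submodule.mkQ_surjective _ x
    obtain ⟨b, hb, e⟩ := (Submodule.Quotient.mk_eq_zero _).1 hx
    obtain ⟨Y, hY, eY⟩ := exists_eq_d₁₂_of_shapiro hL hU C.2.1 C.2.2 hb
      (fun s t => (congrFun e (s, t)).symm)
    exact (Submodule.Quotient.mk_eq_zero _).2 ⟨Y, hY, eY⟩
  · intro y
    obtain ⟨c, rfl⟩ := Submodule.mkQ_surjective _ y
    refine ⟨H2cπ _ _ _ ⟨shapiroInv₂ c.1, shapiroInv₂_mem_cocycles₂ c.2.1,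
      shapiroInv₂_isConst₂ hL hU c.2.2⟩, ?_⟩
    exact congrArg (H2cπ _ _ _) (Subtype.ext (funext fun st => shapiro₂_cochain c.1 st.1 st.2))

/-- Cochain form of Shapiro's lemma in degree one. -/
theorem shapiro₁_exists (hL : L.HasNormal) {U : Subgroup G} (hU : IsLevelSubgroup L r U)
    {M : Rep.{0} k G} (hM : IsSmoothRep L r M) (z : U → M)
    (hz : ∀ s t, z (s * t) = M.ρ s (z t) + z s) (hzc : IsConst₁ L (r.comp U.subtype) z) :
    ∃ w : G → (funRep M U), (∀ s t, w (s * t) = (funRep M U).ρ s (w t) + w s) ∧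
      IsConst₁ L r w ∧ ∀ s : U, w s (QuotientGroup.mk 1) = z s :=
  exists_shapiro₁ hL hU z hz hzc

theorem shapiro₁_injective (hL : L.HasNormal) {U : Subgroup G} (hU : IsLevelSubgroup L r U)
    {M : Rep.{0} k G} (w : G → (funRep M U))
    (hw : ∀ s t, w (s * t) = (funRep M U).ρ s (w t) + w s) (m : M)
    (hm : ∀ s : U, w s (QuotientGroup.mk 1) = M.ρ s m - m) :
    ∃ f : (funRep M U : Type), ∀ g, w g = (funRep M U).ρ g f - f :=
  shapiro₁_eq_coboundary w hw m hm

variable {A B C : Rep.{0} k G} (φ : A →ₗ[k] B) (hφ : ∀ g a, φ (A.ρ g a) = B.ρ g (φ a))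
  (ψ : B →ₗ[k] C) (hψ : ∀ g b, ψ (B.ρ g b) = C.ρ g (ψ b))

include hφ hψ in
/-- Middle exactness in degree two. -/
theorem H2c_exact (hL : L.HasNormal) (hB : IsSmoothRep L r B) (hi : Function.Injective φ)
    (hs : Function.Surjective ψ) (he : Function.Exact φ ψ) :
    Function.Exact (pushH2 (L := L) (r := r) φ hφ) (pushH2 (L := L) (r := r) ψ hψ) :=
  pushH2_exact hL hB hi hs he

include hφ hψ in
/-- Exactness at `H2 A`: the kernel of the coefficient map consists of connecting classes. -/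
theorem H2c_ker_eq_delta (hL : L.HasNormal) (hB : IsSmoothRep L r B) (hi : Function.Injective φ)
    (hs : Function.Surjective ψ) (he : Function.Exact φ ψ) (c : ↥(Z2 L r A))
    (hc : pushH2 (L := L) (r := r) φ hφ (H2cπ L r A c) = 0) :
    ∃ z : G → B, IsConst₁ L r z ∧ (∀ s t, ψ (z (s * t)) = C.ρ s (ψ (z t)) + ψ (z s)) ∧
      ∀ s t, φ (c.1 (s, t)) = B.ρ s (z t) - z (s * t) + z s :=
  pushH2_ker_eq_delta he c hψ hc

variable {p : ℕ} [Fact p.Prime]

/-- The cup product cochain of a pairing. -/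
def cupFun {G : Type} [Group G] {χ : G →* (ZMod p)ˣ} {A M : Rep.{0} (ZMod p) G}
    (P : DualPair p χ A M) (a : G → A) (m : G → M) : G × G → ZMod p :=
  fun g => P.β (a g.1) (M.ρ g.1 (m g.2))

theorem cupFun_mem_Z2 {G : Type} [Group G] {L : Levels} {r : G →* GQ} (hL : L.HasNormal)
    {χ : G →* (ZMod p)ˣ} {A M : Rep.{0} (ZMod p) G} (hM : IsSmoothRep L r M)
    (P : DualPair p χ A M) (C : Rep.{0} (ZMod p) G) (e : ZMod p ≃ₗ[ZMod p] C)
    (he : ∀ g x, C.ρ g (e x) = e ((χ g : ZMod p) * x)) (a : cocycles₁ A) (m : cocycles₁ M)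
    (ha : IsConst₁ L r a) (hm : IsConst₁ L r m) :
    (fun g => e (cupFun P a m g)) ∈ Z2 L r C :=
  cupCochain_mem_Z2 hM P C e he a m ha hm

theorem isSmoothRep_funRep (hL : L.HasNormal) {U : Subgroup G} (hU : IsLevelSubgroup L r U)
    {M : Rep.{0} k G} (hM : IsSmoothRep L r M) : IsSmoothRep L r (funRep M U) := by
  intro f
  have := hU.finite_quotient
  obtain ⟨F₀, hF₀, h₀⟩ := hM.exists_fix (Set.finite_range f)
  obtain ⟨FU, hFU, hU'⟩ := hU
  obtain ⟨F, hF, hN, hle₀, hleU⟩ := Levels.exists_normal₂ hL hF₀ hFU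
  refine ⟨F, hF, fun s hs => funext fun x => ?_⟩
  have hx : s⁻¹ • x = x := by
    obtain ⟨g, rfl⟩ := QuotientGroup.mk_surjective x
    rw [MulAction.Quotient.smul_mk, QuotientGroup.eq, smul_eq_mul, mul_inv_rev, inv_inv]
    exact hU' _ (level_antitone hleU (conj_mem_level hN hs g))
  rw [funRepρ_apply, hx]
  exact h₀ s (level_antitone hle₀ hs) x

end Fermat.Agent.CFT
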