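import Fermat.Agent.CFT.LocalDual.Descent
import Fermat.Agent.CFT.LocalDual.FunRepBound

/-!
# Interface: local duality (owner: helper76)
-/

set_option autoImplicit false

open CategoryTheory groupCohomology ExtCitation Module

noncomputable section

namespace Fermat.Agent.CFT

variable {p : ℕ} [Fact p.Prime] (hp2 : p ≠ 2) (q : Nat.Primes)

/-- The pairing on `H¹` through cocycles is trivial against `a`. -/
def CupZero {A M : Rep.{0} (ZMod p) (primeLocalGaloisGroup q)}
    (P : DualPair p ((cycloChar p).comp (primeLocalToGlobal q)) A M)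
    (a : cocycles₁ A) (m : cocycles₁ M) : Prop :=
  ∃ c : ↥(Z2 Levels.all (primeLocalToGlobal q) (muLoc p q)),
    (∀ g, (c.1 g : ZMod p) = P.β (a g.1) (M.ρ g.1 (m g.2))) ∧ invLoc p q (H2cπ _ _ _ c) = 0

variable {A M : Rep.{0} (ZMod p) (primeLocalGaloisGroup q)} [FiniteDimensional (ZMod p) M]
  (P : DualPair p ((cycloChar p).comp (primeLocalToGlobal q)) A M)
  (hM : IsSmoothRep Levels.all (primeLocalToGlobal q) M)
  (hA : IsSmoothRep Levels.all (primeLocalToGlobal q) A)

include hp2 hM hA in
theorem thetaLoc_bijective : Function.Bijective (thetaLoc P) :=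
  LocalDual.thetaLoc_bij P hp2 hM

include hp2 hM hA in
/-- An `H¹(A)` class orthogonal to all of `H¹(M)` is zero. -/
theorem H1_pairing_injective (a : cocycles₁ A) (ha : IsConst₁ Levels.all (primeLocalToGlobal q) a)
    (h : ∀ m : cocycles₁ M, IsConst₁ Levels.all (primeLocalToGlobal q) m → CupZero q P a m) :
    (H1π A).hom a = 0 :=
  LocalDual.pairing_injective P hp2 hM a ha h

include hp2 hM in
theorem finite_H1c : FiniteDimensional (ZMod p) (H1c Levels.all (primeLocalToGlobal q) M) :=
  LocalDual.finite_H1c_loc hp2 hM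

include hp2 hM in
theorem finite_H2c : FiniteDimensional (ZMod p) (H2c Levels.all (primeLocalToGlobal q) M) :=
  LocalDual.finite_H2c_loc hp2 hM

/-- `funRep U M` read on the local group. -/
abbrev funLoc (U : Subgroup GQ) (M : Rep.{0} (ZMod p) GQ) :
    Rep (ZMod p) (primeLocalGaloisGroup q) :=
  Rep.res (primeLocalToGlobal q) (funRep M U)

include hp2 in
/-- Upper bound `h1 ≤ h0 + h2 + d [q = p]` for modules layered by permutation modules. -/
theorem finrank_H1c_funRep_le {U : Subgroup GQ}
    (hU : IsLevelSubgroup Levels.all (MonoidHom.id GQ) U) (hμ : ∀ g ∈ U, cycloChar p g = 1)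
    (M : Rep.{0} (ZMod p) GQ) [FiniteDimensional (ZMod p) M]
    (hsm : IsSmoothRep Levels.all (MonoidHom.id GQ) M)
    (hfilt : ∀ (W : Submodule (ZMod p) M), (∀ g ∈ U, ∀ w ∈ W, M.ρ g w ∈ W) → W ≠ ⊤ →
      ∃ m ∉ W, ∀ g ∈ U, M.ρ g m - m ∈ W) :
    finrank (ZMod p) (H1c Levels.all (primeLocalToGlobal q) (funLoc q U M)) ≤
      finrank (ZMod p) (funLoc q U M).ρ.invariants +
        finrank (ZMod p) (H2c Levels.all (primeLocalToGlobal q) (funLoc q U M)) +
        (if (q : ℕ) = p then U.index * finrank (ZMod p) M else 0) :=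
  LocalDual.finrank_H1c_funRep_bound M hp2 hU hμ hsm hfilt

end Fermat.Agent.CFT
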