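import Fermat.Agent.CFT.Global.Defs
import Fermat.Agent.CFT.Global.SecondIneq
import Fermat.Agent.CFT.Global.FirstInequality
import Fermat.Agent.CFT.Global.NonsplitPlace
import Fermat.Agent.CFT.Global.HasseNorm
import Fermat.Agent.CFT.Global.HasseMu

/-!
# Interface: global fields with finite products over places
(part 1 owner: helper72; part 2 owner: helper73)
-/

set_option autoImplicit false

open CategoryTheory groupCohomology ExtCitation

noncomputable section

namespace Fermat.Agent.CFT

variable {p : ℕ} [Fact p.Prime] (hp2 : p ≠ 2) {U' U : Subgroup GQ}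

/-! ### Part 1 -/

include hp2 in
/-- First inequality: all sufficiently large `S` have norm index at least `p`. -/
theorem first_inequality (h : KummerStep p U' U) :
    ∃ S₀ : Finset Nat.Primes, ∀ S, S₀ ⊆ S →
      p ∣ (unitsNormS S h.le).relIndex (placeS S U) :=
  first_inequality_proof hp2 h

include hp2 in
/-- A Kummer step in which almost all places split completely is trivial: there are infinitely
many places whose local group does not lie in the bigger field. -/
theorem exists_nonsplit_place (h : KummerStep p U' U) (E : Finset Nat.Primes) :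
    ∃ q ∉ E, ∃ (x : GQ ⧸ U) (τ : placeStab q U x), (placeHom q U x τ : GQ) ∉ U' :=
  exists_nonsplit_place_proof h E

/-! ### Part 2 -/

include hp2 in
/-- The norm index of a Kummer step is exactly `p`. -/
theorem second_inequality (h : KummerStep p U' U) :
    ∃ S₀ : Finset Nat.Primes, ∀ S, S₀ ⊆ S →
      (unitsNormS S h.le).relIndex (placeS S U) = p :=
  second_inequality_of_first hp2 (fun _ _ h' => first_inequality hp2 h') h

include hp2 in
/-- Hasse's norm theorem. -/
theorem hasse_norm (h : KummerStep p U' U) {a : (AlgebraicClosure ℚ)ˣ} (ha : a ∈ fixedUnits U)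
    (hloc : ∀ q, ∃ f ∈ placePts q U', normFun h.le f = diag q U a) :
    ∃ b ∈ fixedUnits U', normFun h.le (globFun U' b) = globFun U a :=
  hasse_norm_of_first hp2 (fun _ _ h' => first_inequality hp2 h') h ha hloc

include hp2 in
/-- Hasse principle for classes with values in `μ_p`: locally trivial classes are trivial in
`ℚ̄ˣ`. -/
theorem hasse_mu (hU : IsLevelSubgroup Levels.all (MonoidHom.id GQ) U)
    (hμ : ∀ g ∈ U, cycloChar p g = 1)
    (c : ↥(Z2 Levels.all U.subtype (muSub p U)))
    (hloc : ∀ q x, locPlace p q U x (H2cπ _ _ _ c) = 0) :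
    ∃ f : U → (AlgebraicClosure ℚ)ˣ, IsConst₁ Levels.all U.subtype f ∧ ∀ s t,
      (muInc p (c.1 (s, t)) : AlgebraicClosure ℚ) = (s : GQ) (f t) / f (s * t) * f s :=
  hasse_mu_proof hp2 hU hμ c hloc

end Fermat.Agent.CFT
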