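import Fermat.Agent.CFT.Setup
import Fermat.Prelude.Def_EllipticCurve_FrobeniusTrace
import Fermat.Agent.CFT.Recip.Theta
import Fermat.Agent.CFT.Recip.Unramified
import Fermat.Agent.CFT.Recip.NormKernel
import Fermat.Agent.CFT.Recip.InvLocSpec
import Fermat.Agent.CFT.Recip.Kernel
import Fermat.Agent.CFT.Recip.SumInv

/-!
# Interface: the invariant and reciprocity (owner: helper74)
-/

set_option autoImplicit false

open CategoryTheory groupCohomology ExtCitation

noncomputable section

namespace Fermat.Agent.CFT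

variable {p : ℕ} [Fact p.Prime] (hp2 : p ≠ 2)

include hp2 in
theorem tower_mul (n : ℕ) (s t : GQ) : tower p n (s * t) = tower p n s + tower p n t := Recip.tower_mul' hp2 n s t

include hp2 in
theorem tower_levelConst (n : ℕ) :
    ∃ F : IntermediateField ℚ (AlgebraicClosure ℚ), F.IsUnramifiedOutside {pPrime p} ∧
      ∀ g s, s ∈ F.fixingSubgroup → tower p n (g * s) = tower p n g := Recip.tower_levelConst' hp2 n

include hp2 in
theorem phiLoc_mul (n : ℕ) (q : Nat.Primes) (a b : (ℚ_[(q : ℕ)])ˣ) :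
    phiLoc p n q (a * b) = phiLoc p n q a + phiLoc p n q b := Recip.phiLoc_mul' hp2 n q a b

include hp2 in
/-- Product formula. -/
theorem phiLoc_product (n : ℕ) (b : ℚˣ) (T : Finset Nat.Primes) (hp : pPrime p ∈ T)
    (hT : ∀ q ∉ T, padicValRat (q : ℕ) (b : ℚ) = 0) :
    ∑ q ∈ T, phiLoc p n q (Units.map (Rat.castHom ℚ_[(q : ℕ)]).toMonoidHom b) = 0 := Recip.phiLoc_product' hp2 n b T hp hT

include hp2 in
theorem isInvariant_unique (q : Nat.Primes)
    (c : ↥(Z2 Levels.all (primeLocalToGlobal q) (muLoc p q))) {i j : ZMod p}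
    (hi : IsInvariant p q c i) (hj : IsInvariant p q c j) : i = j :=
  Recip.isInvariant_unique' hp2 q c hi hj

include hp2 in
theorem invLoc_spec (q : Nat.Primes)
    (c : ↥(Z2 Levels.all (primeLocalToGlobal q) (muLoc p q))) :
    IsInvariant p q c (invLoc p q (H2cπ _ _ _ c)) :=
  Recip.invLoc_spec' hp2 (fun c {_ _} hi hj => isInvariant_unique hp2 q c hi hj) c

include hp2 in
theorem invLoc_bijective (q : Nat.Primes) : Function.Bijective (invLoc p q) :=
  Recip.invLoc_bijective' hp2 fun c {_ _} hi hj => isInvariant_unique hp2 q c hi hj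

set_option linter.unusedVariables false in
include hp2 in
/-- A Frobenius element at `q ≠ p` has tower value `phiLoc q`; a power `q ^ f` its multiple. -/
theorem phiLoc_natCast_eq_tower (n : ℕ) {q : Nat.Primes} (hq : (q : ℕ) ≠ p)
    (A : ValuationSubring (AlgebraicClosure ℚ)) (hA : A.LiesOverPrime (q : ℕ)) {σ : GQ}
    (hσ : A.IsFrobeniusAt σ (q : ℕ)) (u : (ℚ_[(q : ℕ)])ˣ)
    (hu : (u : ℚ_[(q : ℕ)]) = (q : ℕ)) : phiLoc p n q u = tower p n σ := Recip.phiLoc_natCast_eq_tower' n hq A hA hσ u hu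

include hp2 in
/-- Norms from a level-`n` local field lie in the kernel of the symbol. -/
theorem phiLoc_norm_eq_zero (n : ℕ) (q : Nat.Primes) {V : Subgroup (primeLocalGaloisGroup q)}
    (hV : IsLevelSubgroup Levels.all (primeLocalToGlobal q) V)
    (htower : ∀ τ ∈ V, tower p n (primeLocalToGlobal q τ) = 0) (a : (Omega q)ˣ)
    (ha : ∀ τ ∈ V, locAct q τ (a : Omega q) = a) (b : (ℚ_[(q : ℕ)])ˣ)
    (hb : algebraMap ℚ_[(q : ℕ)] (Omega q) b =
      ∏ᶠ x : primeLocalGaloisGroup q ⧸ V, locAct q (Quotient.out x) (a : Omega q)) :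
    phiLoc p n q b = 0 :=
  NormKernel.phiLoc_norm_eq_zero' hp2 n q hV htower a ha b hb

include hp2 in
/-- A class unramified at `q` is zero at `q`. -/
theorem locS_eq_zero_of_not_mem (S : Finset Nat.Primes) {q : Nat.Primes} (hq : q ∉ S)
    (c : H2c (Levels.unr S) (MonoidHom.id GQ) (muRep p)) : locS q (muRep p) c = 0 :=
  RecipUnr.locS_eq_zero_of_not_mem' S hq c

include hp2 in
/-- The same over any field: a class on `U` with `S`-level is zero at places off `S`. -/
theorem locPlace_eq_zero_of_not_mem (S : Finset Nat.Primes) {q : Nat.Primes} (hq : q ∉ S)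
    {U : Subgroup GQ} (hU : IsLevelSubgroup (Levels.unr S) (MonoidHom.id GQ) U)
    (c : ↥(Z2 (Levels.unr S) U.subtype (muSub p U)))
    (c' : ↥(Z2 Levels.all U.subtype (muSub p U))) (hc : c'.1 = c.1) (x : GQ ⧸ U) :
    locPlace p q U x (H2cπ _ _ _ c') = 0 :=
  RecipUnr.locPlace_eq_zero_of_not_mem' S hq hU c c' hc x

include hp2 in
/-- Reciprocity: the local invariants of a global class sum to zero. -/
theorem sum_invLoc_eq_zero (S : Finset Nat.Primes) (hpS : pPrime p ∈ S)
    (c : H2c (Levels.unr S) (MonoidHom.id GQ) (muRep p)) :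
    ∑ q ∈ S, invLoc p q (locS q (muRep p) c) = 0 := Recip.sum_invLoc_eq_zero' hp2 S hpS c

end Fermat.Agent.CFT
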