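import Fermat.Agent.CFT.Setup
import Fermat.Agent.CFT.PrimeBridge
import Fermat.Agent.CFT.GlobalPerm.Smooth
import Fermat.Agent.CFT.GlobalPerm.EulerLe

/-!
# Interface: global bounds for permutation modules, bridge to ideals (owner: helper77)
-/

set_option autoImplicit false

open CategoryTheory groupCohomology ExtCitation Module NumberField IsDedekindDomain

noncomputable section

namespace Fermat.Agent.CFT

/-- The fixed field of a subgroup. -/
abbrev fixFld (U : Subgroup GQ) : IntermediateField ℚ (AlgebraicClosure ℚ) :=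
  IntermediateField.fixedField U

/-- The places above `q` seen as orbits. -/
def orbitRel (q : Nat.Primes) (U : Subgroup GQ) (x y : GQ ⧸ U) : Prop :=
  ∃ τ : primeLocalGaloisGroup q, primeLocalToGlobal q τ • x = y

/-- The number of places above `q` in the fixed field of `U`. -/
def numPlaces (q : Nat.Primes) (U : Subgroup GQ) : ℕ :=
  Nat.card (Quot (orbitRel q U))

/-- Bridge: orbits of `(q, x)` correspond to the nonzero primes of the fixed field. -/
theorem exists_placeBridge {U : Subgroup GQ}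
    (hU : IsLevelSubgroup Levels.all (MonoidHom.id GQ) U) [NumberField (fixFld U)] :
    ∃ e : (Σ q : Nat.Primes, GQ ⧸ U) → HeightOneSpectrum (𝓞 (fixFld U)),
      Function.Surjective e ∧
      (∀ q q' x y, e ⟨q, x⟩ = e ⟨q', y⟩ ↔ q = q' ∧ orbitRel q U x y) ∧
      (∀ q x, ((q : ℕ) : 𝓞 (fixFld U)) ∈ (e ⟨q, x⟩).asIdeal) ∧
      ∀ q x (a : fixFld U), (e ⟨q, x⟩).valuation (fixFld U) a < 1 ↔
        ‖padicEmbedding (q : ℕ) ((Quotient.out x : GQ) a)‖ < 1 :=
  exists_placeBridge_proof hU

variable {p : ℕ} [Fact p.Prime] (hp2 : p ≠ 2) (S : Finset Nat.Primes) (hpS : pPrime p ∈ S)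

include hp2 hpS in
/-- Euler characteristic bound for `funRep U μ_p`, `h0 - h1 + h2 ≤ -[L:ℚ]/2`, given that classes
trivial at `S` die in `ℚ̄ˣ` (Hasse) and that the image at `S` has corank at least one. -/
theorem perm_euler_le {U : Subgroup GQ}
    (hU : IsLevelSubgroup (Levels.unr S) (MonoidHom.id GQ) U)
    (hμ : ∀ g ∈ U, cycloChar p g = 1) :
    FiniteDimensional (ZMod p) (H1c (Levels.unr S) (MonoidHom.id GQ) (funRep (muRep p) U)) ∧
    FiniteDimensional (ZMod p) (H2c (Levels.unr S) (MonoidHom.id GQ) (funRep (muRep p) U)) ∧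
    2 * (1 + finrank (ZMod p) (H2c (Levels.unr S) (MonoidHom.id GQ) (funRep (muRep p) U)))
        + U.index ≤
      2 * finrank (ZMod p) (H1c (Levels.unr S) (MonoidHom.id GQ) (funRep (muRep p) U)) :=
  perm_euler_le_proof hp2 hpS hU hμ

include hpS in
theorem finite_H1c_unr (M : Rep.{0} (ZMod p) GQ) [FiniteDimensional (ZMod p) M]
    (hM : IsSmoothRep (Levels.unr S) (MonoidHom.id GQ) M) :
    FiniteDimensional (ZMod p) (H1c (Levels.unr S) (MonoidHom.id GQ) M) :=
  finite_H1c_unr_proof S M hM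

include hp2 hpS in
theorem finite_H2c_unr (M : Rep.{0} (ZMod p) GQ) [FiniteDimensional (ZMod p) M]
    (hM : IsSmoothRep (Levels.unr S) (MonoidHom.id GQ) M) :
    FiniteDimensional (ZMod p) (H2c (Levels.unr S) (MonoidHom.id GQ) M) :=
  finite_H2c_unr_proof hp2 hpS M hM

/-- The Prelude's smoothness and ramification hypotheses give smoothness at level `S`. -/
theorem isSmoothRep_unr (M : Rep.{0} (ZMod p) GQ) [FiniteDimensional (ZMod p) M]
    (hsm : ∀ m : M, ∃ F : IntermediateField ℚ (AlgebraicClosure ℚ), FiniteDimensional ℚ F ∧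
      ∀ s ∈ F.fixingSubgroup, M.ρ s m = m)
    (hMur : ∀ q : Nat.Primes, q ∉ S → ∀ A : ValuationSubring (AlgebraicClosure ℚ),
      A.LiesOverPrime (q : ℕ) → ∀ g ∈ A.inertiaSubgroupIn ℚ, M.ρ g = 1) :
    IsSmoothRep (Levels.unr S) (MonoidHom.id GQ) M :=
  isSmoothRep_unr_proof S M hsm hMur

end Fermat.Agent.CFT
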