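import Fermat.Agent.CFT.EulerChar.GlobalEuler

/-!
# Interface: the individual global Euler characteristic bound
-/

set_option autoImplicit false

open CategoryTheory groupCohomology ExtCitation Module

noncomputable section

namespace Fermat.Agent.CFT

/-- `h⁰ - h¹ + h² ≤ h⁰(ℝ, M) - dim M` for a module unramified outside `S ∋ p`. -/
theorem global_euler_le {p : ℕ} [Fact p.Prime] (hp2 : p ≠ 2) (S : Finset Nat.Primes)
    (hpS : pPrime p ∈ S) (M : Rep.{0} (ZMod p) GQ) [FiniteDimensional (ZMod p) M]
    (hM : IsSmoothRep (Levels.unr S) (MonoidHom.id GQ) M) :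
    finrank (ZMod p) M.ρ.invariants + finrank (ZMod p) (Sha.G2 S M) + finrank (ZMod p) M ≤
      finrank (ZMod p) (Sha.G1 S M) + finrank (ZMod p) (Rep.res archimedeanLoc M).ρ.invariants := by
  have h := Euler.defect_eq_zero hp2 hpS M hM
  have hc : finrank (ZMod p) (Rep.res archimedeanLoc M).ρ.invariants =
      finrank (ZMod p) (Euler.conjFixed M) :=
    (LinearEquiv.ofEq _ _ (Euler.invariants_archimedean M)).finrank_eq
  rw [hc]
  unfold Euler.defect at h
  omega

end Fermat.Agent.CFT
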