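import Fermat.Agent.CFT.Setup
import Fermat.Agent.CFT.LocalInst.Defs
import Fermat.Agent.CFT.LocalInst.Fields
import Fermat.Agent.CFT.LocalInst.NormIndex
import Fermat.Agent.CFT.LocalInst.MuBridge
import Fermat.Agent.CFT.LocalInst.PowIndex
import Fermat.Agent.CFT.LocalInst.Kummer
import Fermat.Agent.CFT.LocalInst.Cores

/-!
# Interface: local fields inside `Omega q` (owner: helper71)
-/

set_option autoImplicit false

open CategoryTheory groupCohomology ExtCitation

noncomputable section

namespace Fermat.Agent.CFT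

variable {q : Nat.Primes} {V V' : Subgroup (primeLocalGaloisGroup q)}

/-- Krasner: every finite extension of `ℚ_q` is cut out by a global level. -/
theorem isLocLevel_fixingSubgroup (E : IntermediateField ℚ_[(q : ℕ)] (Omega q))
    [FiniteDimensional ℚ_[(q : ℕ)] E] :
    IsLocLevel q (E.fixingSubgroup : Subgroup (Omega q ≃ₐ[ℚ_[(q : ℕ)]] Omega q)) :=
  LocalInst.isLevel_fixingSubgroup E

theorem finiteIndex_of_isLocLevel (hV : IsLocLevel q V) : V.FiniteIndex :=
  LocalInst.finiteIndex_of_level hV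

variable {p : ℕ} [Fact p.Prime]

/-- Local fields with `ζ_p`: the number of `p`-th power classes. -/
theorem locUnits_pow_index (hV : IsLocLevel q V)
    (hμ : ∀ τ ∈ V, cycloChar p (primeLocalToGlobal q τ) = 1) :
    ((powMonoidHom p : (Omega q)ˣ →* (Omega q)ˣ).comp (locUnits q V).subtype).range.relIndex
      (locUnits q V) = p ^ (2 + if (q : ℕ) = p then V.index else 0) :=
  LocalInst.locUnits_pow_index hV hμ

/-- Local first inequality: a cyclic step of prime degree has norm index exactly `p`. -/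
theorem locNorm_index (hV' : IsLocLevel q V') (hle : V' ≤ V) (hn : (V'.subgroupOf V).Normal)
    (hidx : V'.relIndex V = p) :
    (locNormSubgroup q V' V).relIndex (locUnits q V) = p :=
  LocalInst.locNorm_index hV' hle hn hidx

/-- Units are norms in an unramified extension. -/
theorem locNorm_unit (hV' : IsLocLevel q V') (hle : V' ≤ V) (hn : (V'.subgroupOf V).Normal)
    (hidx : V'.relIndex V = p)
    (hI : ∀ τ ∈ V, (∀ x : Omega q, ‖x‖ ≤ 1 → ‖locAct q τ x - x‖ < 1) → τ ∈ V')
    {u : (Omega q)ˣ} (hu : u ∈ locUnits q V) (hu1 : ‖(u : Omega q)‖ = 1) :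
    u ∈ locNormSubgroup q V' V :=
  LocalInst.locNorm_unit hV' hle hn hidx hI hu hu1

/-- `H²(G_K, μ_p)` of a local field is one-dimensional. -/
theorem finrank_H2_muV (hV : IsLocLevel q V) :
    Module.finrank (ZMod p) (H2c Levels.all (rV q V) (muV p q V)) = 1 :=
  LocalInst.finrank_H2 hV

/-- The local symbol is non-degenerate on the right: every non-zero character pairs non-trivially
with some Kummer class. -/
theorem exists_cup_ne_zero (hV : IsLocLevel q V)
    (hμ : ∀ τ ∈ V, cycloChar p (primeLocalToGlobal q τ) = 1) {i : ↥V → ZMod p}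
    (hi : ∀ s t, i (s * t) = i s + i t) (hic : IsConst₁ Levels.all (rV q V) i) (hi0 : i ≠ 0) :
    ∃ (z : ↥V → ZMod p) (c : ↥(Z2 Levels.all (rV q V) (muV p q V))),
      (∀ s t, z (s * t) = z s + z t) ∧ IsConst₁ Levels.all (rV q V) z ∧
      (∀ s t, (c.1 (s, t) : ZMod p) = z s * i t) ∧ H2cπ _ _ _ c ≠ 0 :=
  LocalInst.exists_cup_ne_zero hV hμ hi hic hi0

/-- With `ζ_p` in the field, homomorphisms to `ℤ/p` form a finite space of Kummer dimension. -/
theorem natCard_hom (hV : IsLocLevel q V)
    (hμ : ∀ τ ∈ V, cycloChar p (primeLocalToGlobal q τ) = 1) :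
    Nat.card {z : ↥V → ZMod p // (∀ s t, z (s * t) = z s + z t) ∧
      IsConst₁ Levels.all (rV q V) z} = p ^ (2 + if (q : ℕ) = p then V.index else 0) :=
  LocalInst.natCard_hom hV hμ

/-- Corestriction is onto in degree two for `μ_p`. -/
theorem sum_pushH2_surjective (hV : IsLocLevel q V)
    (σ : funRep (muLoc p q) V →ₗ[ZMod p] muLoc p q)
    (hσ : ∀ f, σ f = ∑ᶠ x, f x)
    (hσe : ∀ g f, σ ((funRep (muLoc p q) V).ρ g f) = (muLoc p q).ρ g (σ f)) :
    Function.Surjective (pushH2 (L := Levels.all) (r := primeLocalToGlobal q) σ hσe) :=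
  LocalInst.sum_pushH2_surjective hV σ hσ hσe

end Fermat.Agent.CFT
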